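/-
GATE-F (S40) / node GF-D1 DLOG, file 1 (helper34): **the logarithmic Euler derivative on Laurent
series**, `dlog f = θ f / f`, `θ = q d/dq` (helper63's `GL/Thick/ThetaL.thetaL`), over a field `k`.

* `dlog_mul`, `dlog_inv`, `dlog_div`, `dlog_pow`, `dlog_C`, `dlog_C_mul`, `dlog_pow_char`:
  `dlog` is a homomorphism from the multiplicative group of `k((q))` to the additive group, killing
  constants and (in characteristic `p`) `p`-th powers;
* `dlog_eq_order_add` : `dlog f = ord_q f + (a power series without constant term)`; hence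
  `dlog_mem_qPowerSeries` : `p ∣ ord_q f ⟹ dlog f ∈ q k[[q]]`;
* `thetaL_eq_zero_iff` : in characteristic `p`, `θ f = 0 ⟺ f ∈ k((q^p))`;
  `thetaL_eq_zero_iff_dT` : `θ f = 0 ⟺ df/dq = 0`;
* `pthRoot`, `pthRoot_pow` : `k` perfect, `θ f = 0 ⟹ f = (pthRoot f)^p` in `k((q))`;
* **`exists_pow_eq_of_thetaL_eq_zero`** : a field `Ft ↪ k((q))`, algebraic over `k(t)` with
  `p ∤ ord_q t` (so `Ft / k(t)` is separable, helper12 `GJ/J1/Separable`): every `f ∈ Ft` with
  `θ f = 0` is a `p`-th power IN `Ft`;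
  `dlog_eq_zero_iff_exists_pow` : for `f ∈ Ftˣ`, `dlog f = 0 ⟺ f ∈ (Ftˣ)^p`.
-/
import Mathlib
import Fermat.Agent.GL.Thick.ThetaL
import Fermat.Agent.GJ.J3.QSeries
import Fermat.Agent.GJ.J1.Separable

set_option autoImplicit false
set_option linter.style.haveILetI false

noncomputable section

namespace Fermat.Agent.GF.D1

open HahnSeries ModularCurve Polynomial IntermediateField
open Fermat.Agent.GL.Thick Fermat.Agent.S24.Fields

/-! ### `dlog` -/

section Dlog

variable {k : Type*} [Field k]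

/-- the logarithmic Euler derivative `dlog f = θ f / f` on `k((q))`. -/
def dlog (f : LaurentSeries k) : LaurentSeries k := thetaL k f * f⁻¹

theorem dlog_def (f : LaurentSeries k) : dlog f = thetaL k f * f⁻¹ := rfl

@[simp] theorem dlog_zero : dlog (0 : LaurentSeries k) = 0 := by
  rw [dlog, inv_zero, mul_zero]

@[simp] theorem dlog_one : dlog (1 : LaurentSeries k) = 0 := by
  rw [dlog, Derivation.map_one_eq_zero, zero_mul]

theorem dlog_mul {f g : LaurentSeries k} (hf : f ≠ 0) (hg : g ≠ 0) :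
    dlog (f * g) = dlog f + dlog g := by
  rw [dlog, dlog, dlog, thetaL_mul]
  field_simp

theorem dlog_inv (f : LaurentSeries k) : dlog f⁻¹ = -dlog f := by
  rcases eq_or_ne f 0 with rfl | hf
  · simp
  · have h := dlog_mul hf (inv_ne_zero hf)
    rw [mul_inv_cancel₀ hf, dlog_one] at h
    exact eq_neg_of_add_eq_zero_right h.symm

theorem dlog_div {f g : LaurentSeries k} (hf : f ≠ 0) (hg : g ≠ 0) :
    dlog (f / g) = dlog f - dlog g := by
  rw [div_eq_mul_inv, dlog_mul hf (inv_ne_zero hg), dlog_inv, sub_eq_add_neg]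

theorem dlog_pow (f : LaurentSeries k) (n : ℕ) : dlog (f ^ n) = n • dlog f := by
  rcases eq_or_ne f 0 with rfl | hf
  · rcases Nat.eq_zero_or_pos n with rfl | hn
    · simp
    · rw [zero_pow hn.ne', dlog_zero, smul_zero]
  · induction n with
    | zero => simp
    | succ n ih => rw [pow_succ, dlog_mul (pow_ne_zero n hf) hf, ih, succ_nsmul]

theorem dlog_C (c : k) : dlog (HahnSeries.C c : LaurentSeries k) = 0 := by
  rw [dlog, thetaL_C, zero_mul]

theorem dlog_C_mul {c : k} (hc : c ≠ 0) {f : LaurentSeries k} (hf : f ≠ 0) :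
    dlog (HahnSeries.C c * f) = dlog f := by
  have hC : (HahnSeries.C c : LaurentSeries k) ≠ 0 := by
    rw [Ne, map_eq_zero_iff _ HahnSeries.C_injective]
    exact hc
  rw [dlog_mul hC hf, dlog_C, zero_add]

/-- in characteristic `p`, `dlog` kills `p`-th powers. -/
theorem dlog_pow_char (p : ℕ) [CharP k p] (f : LaurentSeries k) : dlog (f ^ p) = 0 := by
  rw [dlog, thetaL_pow_char p f, zero_mul]

theorem dlog_eq_zero_iff {f : LaurentSeries k} (hf : f ≠ 0) : dlog f = 0 ↔ thetaL k f = 0 := by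
  rw [dlog, mul_eq_zero, or_iff_left (inv_ne_zero hf)]

/-- `dlog (q^n) = n`. -/
theorem dlog_single_one (n : ℤ) :
    dlog (single n (1 : k) : LaurentSeries k) = HahnSeries.C ((n : ℤ) : k) := by
  have h1 : (single n (1 : k) : LaurentSeries k) * single (-n) (1 : k) = 1 := by
    rw [single_mul_single, add_neg_cancel, mul_one]
    rfl
  rw [dlog, thetaL_single, mul_one, ← eq_inv_of_mul_eq_one_right h1, single_mul_single,
    add_neg_cancel, mul_one]
  rfl

/-- `dlog` of a power series with nonzero constant term is a power series without constant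
term. -/
theorem dlog_ofPowerSeries {P : PowerSeries k} (hP : PowerSeries.constantCoeff P ≠ 0) :
    ∃ Q : PowerSeries k, PowerSeries.constantCoeff Q = 0 ∧
      dlog (ofPowerSeries ℤ k P) = ofPowerSeries ℤ k Q := by
  refine ⟨Fermat.Agent.S16.RAM.theta k P * P⁻¹, ?_, ?_⟩
  · rw [map_mul]
    have h0 : PowerSeries.constantCoeff (Fermat.Agent.S16.RAM.theta k P) = 0 := by
      rw [← PowerSeries.coeff_zero_eq_constantCoeff_apply, Fermat.Agent.S16.RAM.coeff_theta]
      simp
    rw [h0, zero_mul]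
  · have h1 : ofPowerSeries ℤ k P * ofPowerSeries ℤ k P⁻¹ = 1 := by
      rw [← map_mul, PowerSeries.mul_inv_cancel P hP, map_one]
    rw [dlog, thetaL_ofPowerSeries, ← eq_inv_of_mul_eq_one_right h1, ← map_mul]

/-- **`dlog f = ord_q f + (power series without constant term)`.** -/
theorem dlog_eq_order_add {f : LaurentSeries k} (hf : f ≠ 0) :
    ∃ Q : PowerSeries k, PowerSeries.constantCoeff Q = 0 ∧
      dlog f = HahnSeries.C ((f.order : ℤ) : k) + ofPowerSeries ℤ k Q := by
  have hfac := LaurentSeries.single_order_mul_powerSeriesPart f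
  have hP0 : PowerSeries.constantCoeff f.powerSeriesPart ≠ 0 := by
    rw [← PowerSeries.coeff_zero_eq_constantCoeff_apply, LaurentSeries.powerSeriesPart_coeff,
      Nat.cast_zero, add_zero]
    exact fun h0 => hf (HahnSeries.coeff_order_eq_zero.mp h0)
  obtain ⟨Q, hQ0, hQ⟩ := dlog_ofPowerSeries hP0
  refine ⟨Q, hQ0, ?_⟩
  have hs : (single f.order (1 : k) : LaurentSeries k) ≠ 0 := single_ne_zero one_ne_zero
  have hp : ofPowerSeries ℤ k f.powerSeriesPart ≠ 0 := by
    intro h0
    rw [h0, mul_zero] at hfac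
    exact hf hfac.symm
  rw [← hfac, dlog_mul hs hp, dlog_single_one, hQ, hfac]

/-- `p ∣ ord_q f ⟹ dlog f ∈ q k[[q]]`. -/
theorem dlog_mem_qPowerSeries (p : ℕ) [CharP k p] {f : LaurentSeries k} (hf : f ≠ 0)
    (hord : (p : ℤ) ∣ f.order) :
    ∃ Q : PowerSeries k, PowerSeries.constantCoeff Q = 0 ∧ dlog f = ofPowerSeries ℤ k Q := by
  obtain ⟨Q, hQ0, hQ⟩ := dlog_eq_order_add hf
  refine ⟨Q, hQ0, ?_⟩
  rw [hQ, (CharP.intCast_eq_zero_iff k p f.order).mpr hord, map_zero, zero_add]

end Dlog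

/-! ### the kernel of `θ` -/

section Kernel

variable {k : Type*} [Field k]

/-- in characteristic `p`: `θ f = 0 ⟺ f ∈ k((q^p))`. -/
theorem thetaL_eq_zero_iff (p : ℕ) [CharP k p] (f : LaurentSeries k) :
    thetaL k f = 0 ↔ ∀ n : ℤ, f.coeff n ≠ 0 → (p : ℤ) ∣ n := by
  constructor
  · intro h n hn
    have h1 : (thetaL k f).coeff n = 0 := by rw [h, HahnSeries.coeff_zero]
    rw [coeff_thetaL] at h1
    exact (CharP.intCast_eq_zero_iff k p n).mp ((mul_eq_zero.mp h1).resolve_right hn)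
  · intro h
    ext n
    rw [coeff_thetaL, HahnSeries.coeff_zero]
    by_cases hn : f.coeff n = 0
    · rw [hn, mul_zero]
    · rw [(CharP.intCast_eq_zero_iff k p n).mpr (h n hn), zero_mul]

/-- `θ f = 0 ⟺ df/dq = 0`. -/
theorem thetaL_eq_zero_iff_dT (f : LaurentSeries k) : thetaL k f = 0 ↔ dT f = 0 := by
  constructor
  · intro h
    ext n
    have h1 : (thetaL k f).coeff (n + 1) = 0 := by rw [h, HahnSeries.coeff_zero]
    rw [coeff_thetaL] at h1
    rw [dT_coeff', HahnSeries.coeff_zero]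
    exact h1
  · intro h
    ext n
    have h1 : (dT f).coeff (n - 1) = 0 := by rw [h, HahnSeries.coeff_zero]
    rw [dT_coeff', sub_add_cancel] at h1
    rw [coeff_thetaL, HahnSeries.coeff_zero]
    exact h1

variable (p : ℕ) [Fact p.Prime] [CharP k p] [PerfectRing k p]

/-- the support of `n ↦ (f_{pn})^{1/p}` is bounded below. -/
theorem bddBelow_support_pthRoot (f : LaurentSeries k) :
    BddBelow (Function.support fun n : ℤ => (frobeniusEquiv k p).symm (f.coeff ((p : ℤ) * n))) := by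
  refine ⟨min f.order 0, ?_⟩
  intro n hn
  rw [Function.mem_support] at hn
  have hc : f.coeff ((p : ℤ) * n) ≠ 0 := by
    intro h0
    exact hn (by rw [h0, map_zero])
  have h1 : f.order ≤ (p : ℤ) * n := HahnSeries.order_le_of_coeff_ne_zero hc
  by_contra hlt
  rw [not_le, lt_min_iff] at hlt
  have hp : (1 : ℤ) ≤ p := by exact_mod_cast (Fact.out : p.Prime).one_le
  nlinarith [hlt.1, hlt.2]

/-- the coefficientwise `p`-th root of the `q^p`-part of a Laurent series. -/
def pthRoot (f : LaurentSeries k) : LaurentSeries k :=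
  HahnSeries.ofSuppBddBelow (fun n : ℤ => (frobeniusEquiv k p).symm (f.coeff ((p : ℤ) * n)))
    (bddBelow_support_pthRoot p f)

@[simp] theorem coeff_pthRoot (f : LaurentSeries k) (n : ℤ) :
    (pthRoot p f).coeff n = (frobeniusEquiv k p).symm (f.coeff ((p : ℤ) * n)) := by
  rw [pthRoot, HahnSeries.coeff_ofSuppBddBelow]

/-- **`k` perfect of characteristic `p`: `θ f = 0 ⟹ f = (pthRoot f)^p`.** -/
theorem pthRoot_pow {f : LaurentSeries k} (hf : thetaL k f = 0) : pthRoot p f ^ p = f := by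
  haveI : NeZero p := ⟨(Fact.out : p.Prime).ne_zero⟩
  rw [Fermat.Agent.GJ.J3.QS.pow_char_eq_qExpand p]
  ext n
  by_cases hn : (p : ℤ) ∣ n
  · obtain ⟨m, rfl⟩ := hn
    rw [qExpand_coeff_mul, coeffMap_coeff, coeff_pthRoot]
    exact frobenius_apply_frobeniusEquiv_symm k p _
  · rw [qExpand_coeff_of_not_dvd p _ hn]
    by_contra hne
    exact hn ((thetaL_eq_zero_iff p f).mp hf n (Ne.symm hne))

end Kernel

/-! ### subfields of `k((q))`, separable over `k(t)` -/

section Subfield

variable {k : Type*} [Field k] (p : ℕ) [Fact p.Prime] [CharP k p] [PerfectField k]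
variable {Ft : Type*} [Field Ft] [Algebra k Ft]

/-- **the kernel of `θ` on a function field `Ft ↪ k((q))` consists of `p`-th powers of `Ft`**:
`k` perfect of characteristic `p`, `Ft` algebraic over `k(t)` with `p ∤ ord_q t`. -/
theorem exists_pow_eq_of_thetaL_eq_zero (ι : Ft →ₐ[k] LaurentSeries k) (tt : Ft)
    (hord : ¬ (p : ℤ) ∣ (ι tt).order) [Algebra.IsAlgebraic k⟮tt⟯ Ft] {f : Ft}
    (hf : thetaL k (ι f) = 0) : ∃ g : Ft, g ^ p = f := by
  haveI : PerfectRing k p := inferInstance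
  -- the `p`-th root in `k((q))`
  set g₀ : LaurentSeries k := pthRoot p (ι f) with hg₀
  have hg₀p : g₀ ^ p = ι f := pthRoot_pow p hf
  -- algebra structures on `k((q))` over `Ft` and over `k(t)`
  letI : Algebra Ft (LaurentSeries k) := ι.toRingHom.toAlgebra
  have hFt : ∀ x : Ft, algebraMap Ft (LaurentSeries k) x = ι x := fun _ => rfl
  haveI hT1 := IsScalarTower.of_algebraMap_eq (R := k) (S := Ft) (A := LaurentSeries k)
    fun c => by rw [hFt, AlgHom.commutes]
  letI : Algebra k⟮tt⟯ (LaurentSeries k) :=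
    ((algebraMap Ft (LaurentSeries k)).comp (algebraMap k⟮tt⟯ Ft)).toAlgebra
  have hK₀ : ∀ x : k⟮tt⟯, algebraMap k⟮tt⟯ (LaurentSeries k) x = ι (x : Ft) := fun _ => rfl
  haveI hT2 := IsScalarTower.of_algebraMap_eq (R := k⟮tt⟯) (S := Ft) (A := LaurentSeries k)
    fun _ => rfl
  haveI hT3 := IsScalarTower.of_algebraMap_eq (R := k) (S := k⟮tt⟯) (A := LaurentSeries k)
    fun c => by
      rw [hK₀]
      exact (AlgHom.commutes ι c).symm
  -- `ι t` has nonzero derivative
  have hs0 : ι tt ≠ 0 := by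
    intro h0
    rw [h0, HahnSeries.order_zero] at hord
    exact hord (dvd_zero _)
  have hdT : dT (ι tt) ≠ 0 := Fermat.Agent.GJ.J1.Sep.dT_ne_zero_of_order p (ι tt) hs0 hord
  -- `g₀` is algebraic over `k(t)`
  have halgFt : IsAlgebraic Ft g₀ := by
    refine IsAlgebraic.of_pow (Fact.out : p.Prime).pos ?_
    rw [hg₀p, ← hFt]
    exact isAlgebraic_algebraMap f
  have halg : IsAlgebraic k⟮tt⟯ g₀ := halgFt.restrictScalars k⟮tt⟯
  -- hence separable over `k(t)` (helper12), hence over `Ft`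
  have hgen : ∀ c : k⟮tt⟯, ∃ a b : k[X], aeval (AdjoinSimple.gen k tt) b ≠ 0 ∧
      c = aeval (AdjoinSimple.gen k tt) a / aeval (AdjoinSimple.gen k tt) b := by
    intro c
    obtain ⟨a, b, hab⟩ := (mem_adjoin_simple_iff k (c : Ft)).mp c.2
    by_cases hb : aeval tt b = 0
    · refine ⟨0, 1, by simp, ?_⟩
      apply Subtype.ext
      rw [hab, hb, div_zero]
      simp
    · have hbgen : (aeval (AdjoinSimple.gen k tt) b : k⟮tt⟯) ≠ 0 := by
        intro h0
        apply hb
        have := congrArg (algebraMap k⟮tt⟯ Ft) h0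
        rwa [← Polynomial.aeval_algebraMap_apply, AdjoinSimple.algebraMap_gen, map_zero] at this
      refine ⟨a, b, hbgen, ?_⟩
      apply (algebraMap k⟮tt⟯ Ft).injective
      rw [map_div₀, ← Polynomial.aeval_algebraMap_apply, ← Polynomial.aeval_algebraMap_apply,
        AdjoinSimple.algebraMap_gen]
      exact hab
  have hsep₀ : IsSeparable k⟮tt⟯ g₀ :=
    Fermat.Agent.GJ.J1.Sep.isSeparable_of_generated (k := k) (L := LaurentSeries k)
      (K₀ := k⟮tt⟯) p Fermat.Agent.GJ.J1.Sep.dTD (AdjoinSimple.gen k tt)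
      (by rw [hK₀, AdjoinSimple.coe_gen, Fermat.Agent.GJ.J1.Sep.dTD_apply]; exact hdT)
      hgen g₀ halg
  have hsep : IsSeparable Ft g₀ := hsep₀.tower_top Ft
  -- separable and purely inseparable over `Ft`: in `Ft`
  haveI : CharP Ft p := charP_of_injective_algebraMap (algebraMap k Ft).injective p
  haveI : ExpChar Ft p := ExpChar.prime (Fact.out : p.Prime)
  haveI : Algebra.IsSeparable Ft Ft⟮g₀⟯ :=
    (isSeparable_adjoin_simple_iff_isSeparable Ft (LaurentSeries k)).mpr hsep
  haveI : IsPurelyInseparable Ft Ft⟮g₀⟯ :=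
    (isPurelyInseparable_adjoin_simple_iff_pow_mem Ft (LaurentSeries k) p).mpr
      ⟨1, f, by rw [pow_one, hg₀p, hFt]⟩
  have hmem : g₀ ∈ Ft⟮g₀⟯ := mem_adjoin_simple_self Ft g₀
  rw [Ft⟮g₀⟯.eq_bot_of_isPurelyInseparable_of_isSeparable, IntermediateField.mem_bot] at hmem
  obtain ⟨g, hg⟩ := hmem
  refine ⟨g, ι.toRingHom.injective ?_⟩
  show ι (g ^ p) = ι f
  rw [map_pow, ← hFt g, hg, hg₀p]

/-- for a unit `f` of `Ft`: `dlog f = 0 ⟺ f` is a `p`-th power of a unit of `Ft`. -/
theorem dlog_eq_zero_iff_exists_pow (ι : Ft →ₐ[k] LaurentSeries k) (tt : Ft)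
    (hord : ¬ (p : ℤ) ∣ (ι tt).order) [Algebra.IsAlgebraic k⟮tt⟯ Ft] (f : Ftˣ) :
    dlog (ι (f : Ft)) = 0 ↔ ∃ g : Ftˣ, g ^ p = f := by
  have hf0 : ι (f : Ft) ≠ 0 := (map_ne_zero_iff ι ι.toRingHom.injective).mpr f.ne_zero
  rw [dlog_eq_zero_iff hf0]
  constructor
  · intro h
    obtain ⟨g, hg⟩ := exists_pow_eq_of_thetaL_eq_zero p ι tt hord h
    have hg0 : g ≠ 0 := by
      rintro rfl
      rw [zero_pow (Fact.out : p.Prime).ne_zero] at hg
      exact f.ne_zero hg.symm
    exact ⟨Units.mk0 g hg0, Units.ext (by rw [Units.val_pow_eq_pow_val, Units.val_mk0, hg])⟩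
  · rintro ⟨g, rfl⟩
    rw [Units.val_pow_eq_pow_val, map_pow]
    exact thetaL_pow_char p _

end Subfield

end Fermat.Agent.GF.D1
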