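/-
GATE-F (S40) / node GF-D1 DLOG, file 2 (helper34): **`θ = dlog ∘ red` on the Kummer group of an
abstract reduction datum**.

`R : RedData K F k Ft` (GJ/J1/Defs), `ι : Ft →ₐ[k] k((q))` an embedding of the residue function
field in Laurent series (for `FresBar` the inclusion), `hun : Unram R` (every nonzero function is a
constant times a unit of the valuation ring `Rw`; = `GalVal.unram`).

* `dlogRed R ι hun u := dlog (ι (red (c u)))`, `c` any constant with `c u ∈ Rwˣ` — independent of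
  `c` (`dlogRed_eq`), multiplicative (`dlogRed_mul`, `dlogRedHom`), kills constants and, in
  characteristic `p`, `p`-th powers;
* `thetaKum R ι hun p : Additive (Kum K F p) →+ k((q))`, `thetaKum_mk`;
* `dlogRed_eq_zero_iff` / **`thetaKum_eq_zero_iff`** : `Ft` algebraic over `k(t)`, `p ∤ ord_q (ι t)`,
  `k` perfect of characteristic `p`:  `θ [u] = 0 ⟺ ∃ c ≠ 0, g : c u / g^p ∈ Rw, red (c u / g^p) = 1`
  (the class has a representative which is a constant times a principal unit);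
* `thetaKum_mem_qPowerSeries` : `p ∣ ord_q (ι (red (c u))) ⟹ θ [u] ∈ q k[[q]]`.
-/
import Mathlib
import Fermat.Agent.GF.D1.Core
import Fermat.Agent.GJ.J1.Defs
import Fermat.Agent.GJ.J2.EigIface

set_option autoImplicit false
set_option linter.unusedSectionVars false
set_option linter.style.haveILetI false

noncomputable section

namespace Fermat.Agent.GF.D1

open HahnSeries IntermediateField AlgebraicCurve
open Fermat.Agent.GL.Thick Fermat.Agent.GJ.J1

variable {K F k Ft : Type*} [Field K] [Field F] [Algebra K F] [Field k] [Field Ft] [Algebra k Ft]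

/-- every nonzero function is a constant times a unit of the valuation ring of the reduction
datum (`w` is unramified over the constants). -/
def Unram (R : RedData K F k Ft) : Prop :=
  ∀ y : F, y ≠ 0 → ∃ c : K, c ≠ 0 ∧ algebraMap K F c * y ∈ R.Rw ∧ (algebraMap K F c * y)⁻¹ ∈ R.Rw

section Aux

variable (R : RedData K F k Ft)

/-- the reduction of a unit of `Rw` is nonzero. -/
theorem red_ne_zero_of_inv_mem {y : F} (h : y ∈ R.Rw) (h' : y⁻¹ ∈ R.Rw) (hy : y ≠ 0) :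
    R.red ⟨y, h⟩ ≠ 0 := by
  intro h0
  have h1 : R.red ⟨y, h⟩ * R.red ⟨y⁻¹, h'⟩ = 1 := by
    rw [← map_mul]
    have e : (⟨y, h⟩ * ⟨y⁻¹, h'⟩ : R.Rw) = 1 := Subtype.ext (mul_inv_cancel₀ hy)
    rw [e, map_one]
  rw [h0, zero_mul] at h1
  exact zero_ne_one h1

/-- an element of `Rw` with nonzero reduction is a unit of `Rw`. -/
theorem inv_mem_of_red_ne_zero {y : F} (h : y ∈ R.Rw) (h0 : R.red ⟨y, h⟩ ≠ 0) : y⁻¹ ∈ R.Rw := by
  have hnm : (⟨y, h⟩ : R.Rw) ∉ IsLocalRing.maximalIdeal R.Rw := fun hm =>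
    h0 ((R.red_eq_zero_iff _).mpr hm)
  have hu : IsUnit (⟨y, h⟩ : R.Rw) := by
    by_contra hnu
    exact hnm ((IsLocalRing.mem_maximalIdeal _).mpr hnu)
  obtain ⟨v, hv⟩ := hu
  have h1 : y * ((v⁻¹ : R.Rwˣ) : R.Rw) = 1 := by
    have := congrArg (Subtype.val) (v.mul_inv)
    rw [hv] at this
    exact this
  have h2 : y⁻¹ = ((v⁻¹ : R.Rwˣ) : R.Rw) := (eq_inv_of_mul_eq_one_right h1).symm ▸ rfl
  rw [h2]
  exact ((v⁻¹ : R.Rwˣ) : R.Rw).2

/-- a constant `a` with `y, a y ∈ Rwˣ` is a unit of `A`; `red (a y) = res a · red y`. -/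
theorem red_const_mul {y : F} (hy : y ≠ 0) (h : y ∈ R.Rw) (h' : y⁻¹ ∈ R.Rw) {a : K}
    (h1 : algebraMap K F a * y ∈ R.Rw) (h2 : (algebraMap K F a * y)⁻¹ ∈ R.Rw) (ha : a ≠ 0) :
    ∃ c : k, c ≠ 0 ∧ R.red ⟨algebraMap K F a * y, h1⟩ = algebraMap k Ft c * R.red ⟨y, h⟩ := by
  have haF : algebraMap K F a ≠ 0 := (map_ne_zero_iff _ (algebraMap K F).injective).mpr ha
  have hmem : algebraMap K F a ∈ R.Rw := by
    have e : algebraMap K F a = (algebraMap K F a * y) * y⁻¹ := by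
      rw [mul_assoc, mul_inv_cancel₀ hy, mul_one]
    rw [e]
    exact mul_mem h1 h'
  have hmem' : (algebraMap K F a)⁻¹ ∈ R.Rw := by
    have e : (algebraMap K F a)⁻¹ = (algebraMap K F a * y)⁻¹ * y := by
      rw [mul_inv, mul_assoc, inv_mul_cancel₀ hy, mul_one]
    rw [e]
    exact mul_mem h2 h
  have haA : a ∈ R.A := (R.mem_A_iff a).mpr hmem
  refine ⟨R.res ⟨a, haA⟩, ?_, ?_⟩
  · intro h0
    have h3 := R.red_algebraMap ⟨a, haA⟩
    rw [h0, map_zero] at h3
    exact red_ne_zero_of_inv_mem R hmem hmem' haF h3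
  · rw [← R.red_algebraMap ⟨a, haA⟩, ← map_mul]
    rfl

end Aux

section DlogRed

variable (R : RedData K F k Ft) (ι : Ft →ₐ[k] LaurentSeries k) (hun : Unram R)

theorem iota_algebraMap (c : k) : ι (algebraMap k Ft c) = HahnSeries.C c := by
  rw [AlgHom.commutes, Fermat.Agent.GJ.J1.Sep.algebraMap_laurent_eq_C]

theorem iota_ne_zero {x : Ft} (hx : x ≠ 0) : ι x ≠ 0 :=
  (map_ne_zero_iff ι ι.toRingHom.injective).mpr hx

/-- `dlog ∘ red` on the units of `Rw`, after normalising by a constant. -/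
def dlogRed (u : Fˣ) : LaurentSeries k :=
  dlog (ι (R.red ⟨algebraMap K F (Classical.choose (hun u u.ne_zero)) * u,
    (Classical.choose_spec (hun u u.ne_zero)).2.1⟩))

/-- `dlogRed` does not depend on the normalising constant. -/
theorem dlogRed_eq (u : Fˣ) {c : K} (hc : c ≠ 0) (h1 : algebraMap K F c * u ∈ R.Rw)
    (h2 : (algebraMap K F c * (u : F))⁻¹ ∈ R.Rw) :
    dlogRed R ι hun u = dlog (ι (R.red ⟨algebraMap K F c * u, h1⟩)) := by
  obtain ⟨hc₀, h1₀, h2₀⟩ := Classical.choose_spec (hun u u.ne_zero)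
  set c₀ := Classical.choose (hun u u.ne_zero) with hc₀def
  have hc₀F : algebraMap K F c₀ ≠ 0 := (map_ne_zero_iff _ (algebraMap K F).injective).mpr hc₀
  have hy : algebraMap K F c₀ * (u : F) ≠ 0 := mul_ne_zero hc₀F u.ne_zero
  have e : algebraMap K F c * (u : F) = algebraMap K F (c / c₀) * (algebraMap K F c₀ * u) := by
    rw [map_div₀, ← mul_assoc, div_mul_cancel₀ _ hc₀F]
  have h1' : algebraMap K F (c / c₀) * (algebraMap K F c₀ * u) ∈ R.Rw := e ▸ h1
  have h2' : (algebraMap K F (c / c₀) * (algebraMap K F c₀ * (u : F)))⁻¹ ∈ R.Rw := e ▸ h2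
  obtain ⟨a, ha, hred⟩ := red_const_mul R hy h1₀ h2₀ h1' h2' (div_ne_zero hc hc₀)
  have hred' : R.red ⟨algebraMap K F c * u, h1⟩ =
      algebraMap k Ft a * R.red ⟨algebraMap K F c₀ * u, h1₀⟩ := by
    rw [← hred]
    congr 1
    exact Subtype.ext e
  rw [hred', map_mul, iota_algebraMap, dlog_C_mul ha
    (iota_ne_zero ι (red_ne_zero_of_inv_mem R h1₀ h2₀ hy))]
  rfl

theorem dlogRed_mul (u v : Fˣ) :
    dlogRed R ι hun (u * v) = dlogRed R ι hun u + dlogRed R ι hun v := by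
  obtain ⟨cu, hcu, hu1, hu2⟩ := hun u u.ne_zero
  obtain ⟨cv, hcv, hv1, hv2⟩ := hun v v.ne_zero
  have e : algebraMap K F (cu * cv) * ((u * v : Fˣ) : F) =
      (algebraMap K F cu * u) * (algebraMap K F cv * v) := by
    rw [map_mul, Units.val_mul]
    ring
  have h1 : algebraMap K F (cu * cv) * ((u * v : Fˣ) : F) ∈ R.Rw := by
    rw [e]
    exact mul_mem hu1 hv1
  have h2 : (algebraMap K F (cu * cv) * ((u * v : Fˣ) : F))⁻¹ ∈ R.Rw := by
    rw [e, mul_inv]
    exact mul_mem hu2 hv2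
  have hcuF : algebraMap K F cu ≠ 0 := (map_ne_zero_iff _ (algebraMap K F).injective).mpr hcu
  have hcvF : algebraMap K F cv ≠ 0 := (map_ne_zero_iff _ (algebraMap K F).injective).mpr hcv
  rw [dlogRed_eq R ι hun (u * v) (mul_ne_zero hcu hcv) h1 h2, dlogRed_eq R ι hun u hcu hu1 hu2,
    dlogRed_eq R ι hun v hcv hv1 hv2]
  have hr : R.red ⟨algebraMap K F (cu * cv) * ((u * v : Fˣ) : F), h1⟩ =
      R.red ⟨algebraMap K F cu * u, hu1⟩ * R.red ⟨algebraMap K F cv * v, hv1⟩ := by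
    rw [← map_mul]
    congr 1
    exact Subtype.ext e
  rw [hr, map_mul, dlog_mul
    (iota_ne_zero ι (red_ne_zero_of_inv_mem R hu1 hu2 (mul_ne_zero hcuF u.ne_zero)))
    (iota_ne_zero ι (red_ne_zero_of_inv_mem R hv1 hv2 (mul_ne_zero hcvF v.ne_zero)))]

theorem dlogRed_one : dlogRed R ι hun 1 = 0 := by
  have h := dlogRed_mul R ι hun 1 1
  rw [mul_one] at h
  exact left_eq_add.mp h

/-- `dlogRed` as a homomorphism. -/
def dlogRedHom : Fˣ →* Multiplicative (LaurentSeries k) where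
  toFun u := Multiplicative.ofAdd (dlogRed R ι hun u)
  map_one' := by rw [dlogRed_one]; rfl
  map_mul' u v := by rw [dlogRed_mul]; rfl

@[simp] theorem dlogRedHom_apply (u : Fˣ) :
    dlogRedHom R ι hun u = Multiplicative.ofAdd (dlogRed R ι hun u) := rfl

theorem dlogRed_pow (u : Fˣ) (n : ℕ) : dlogRed R ι hun (u ^ n) = n • dlogRed R ι hun u := by
  have h := map_pow (dlogRedHom R ι hun) u n
  simpa using congrArg Multiplicative.toAdd h

theorem dlogRed_inv (u : Fˣ) : dlogRed R ι hun u⁻¹ = -dlogRed R ι hun u := by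
  have h := map_inv (dlogRedHom R ι hun) u
  simpa using congrArg Multiplicative.toAdd h

theorem dlogRed_div (u v : Fˣ) :
    dlogRed R ι hun (u / v) = dlogRed R ι hun u - dlogRed R ι hun v := by
  rw [div_eq_mul_inv, dlogRed_mul, dlogRed_inv, sub_eq_add_neg]

/-- in characteristic `p`, `dlogRed` kills `p`-th powers. -/
theorem dlogRed_pow_char (p : ℕ) [CharP k p] (w : Fˣ) : dlogRed R ι hun (w ^ p) = 0 := by
  obtain ⟨c, hc, h1, h2⟩ := hun w w.ne_zero
  have e : algebraMap K F (c ^ p) * ((w ^ p : Fˣ) : F) = (algebraMap K F c * w) ^ p := by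
    rw [map_pow, Units.val_pow_eq_pow_val, mul_pow]
  have h1' : algebraMap K F (c ^ p) * ((w ^ p : Fˣ) : F) ∈ R.Rw := by
    rw [e]
    exact pow_mem h1 p
  have h2' : (algebraMap K F (c ^ p) * ((w ^ p : Fˣ) : F))⁻¹ ∈ R.Rw := by
    rw [e, ← inv_pow]
    exact pow_mem h2 p
  rw [dlogRed_eq R ι hun (w ^ p) (pow_ne_zero p hc) h1' h2']
  have hr : R.red ⟨algebraMap K F (c ^ p) * ((w ^ p : Fˣ) : F), h1'⟩ =
      R.red ⟨algebraMap K F c * w, h1⟩ ^ p := by
    rw [← map_pow]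
    congr 1
    exact Subtype.ext e
  rw [hr, map_pow, dlog_pow_char p]

/-- a function whose normalisation has reduction `1` has `dlogRed = 0`. -/
theorem dlogRed_eq_zero_of_red_eq_one (u : Fˣ) {c : K} (hc : c ≠ 0)
    (h1 : algebraMap K F c * u ∈ R.Rw) (hred : R.red ⟨algebraMap K F c * u, h1⟩ = 1) :
    dlogRed R ι hun u = 0 := by
  have h2 : (algebraMap K F c * (u : F))⁻¹ ∈ R.Rw :=
    inv_mem_of_red_ne_zero R h1 (by rw [hred]; exact one_ne_zero)
  rw [dlogRed_eq R ι hun u hc h1 h2, hred, map_one, dlog_one]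

end DlogRed

/-! ### the Kummer group -/

section Kum

open Fermat.Agent.GJ.KumGroup

variable (R : RedData K F k Ft) (ι : Ft →ₐ[k] LaurentSeries k) (hun : Unram R)
variable (p : ℕ) [CharP k p]

/-- **`θ = dlog ∘ red` on the Kummer group** `Kum_p(F) = {u | p ∣ div u} / (Fˣ)^p`. -/
def thetaKum : Additive (Kum K F p) →+ LaurentSeries k :=
  MonoidHom.toAdditiveLeft
    (QuotientGroup.lift (pPowers K F p)
      ((dlogRedHom R ι hun).comp (pDivUnits K F p).subtype)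
      (by
        rintro x ⟨w, hw⟩
        have hw' : w ^ p = (x : Fˣ) := hw
        rw [MonoidHom.mem_ker, MonoidHom.comp_apply]
        show Multiplicative.ofAdd (dlogRed R ι hun (x : Fˣ)) = 1
        rw [← hw', dlogRed_pow_char R ι hun p w]
        rfl))

theorem thetaKum_mk (u : pDivUnits K F p) :
    thetaKum R ι hun p (Additive.ofMul (Kum.mk u)) = dlogRed R ι hun (u : Fˣ) := rfl

/-- every class of `Kum_p(F)` is the class of a `p`-divisible unit. -/
theorem exists_rep_kum (x : Additive (Kum K F p)) :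
    ∃ u : pDivUnits K F p, Additive.ofMul (Kum.mk u) = x := by
  obtain ⟨u, hu⟩ := Kum.mk_surjective (Additive.toMul x)
  exact ⟨u, by rw [hu]; rfl⟩

variable [Fact p.Prime] [PerfectField k]

/-- **the kernel of `dlogRed`**: the functions which are, up to a `p`-th power, a constant times a
principal unit. -/
theorem dlogRed_eq_zero_iff (tt : Ft) (hord : ¬ (p : ℤ) ∣ (ι tt).order)
    [Algebra.IsAlgebraic k⟮tt⟯ Ft] (u : Fˣ) :
    dlogRed R ι hun u = 0 ↔ ∃ (c : K) (g : Fˣ), c ≠ 0 ∧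
      ∃ h : algebraMap K F c * ((u / g ^ p : Fˣ) : F) ∈ R.Rw,
        R.red ⟨algebraMap K F c * ((u / g ^ p : Fˣ) : F), h⟩ = 1 := by
  constructor
  · intro h0
    obtain ⟨c, hc, h1, h2⟩ := hun u u.ne_zero
    have hcF : algebraMap K F c ≠ 0 := (map_ne_zero_iff _ (algebraMap K F).injective).mpr hc
    have hy : algebraMap K F c * (u : F) ≠ 0 := mul_ne_zero hcF u.ne_zero
    rw [dlogRed_eq R ι hun u hc h1 h2] at h0
    have hr0 : R.red ⟨algebraMap K F c * u, h1⟩ ≠ 0 := red_ne_zero_of_inv_mem R h1 h2 hy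
    obtain ⟨gb, hgb⟩ := (dlog_eq_zero_iff_exists_pow p ι tt hord (Units.mk0 _ hr0)).mp h0
    -- lift `gb`
    obtain ⟨⟨g₁, hg₁⟩, hg₁r⟩ := R.red_surjective (gb : Ft)
    have hg₁0 : g₁ ≠ 0 := by
      rintro rfl
      have : R.red ⟨0, hg₁⟩ = 0 := map_zero R.red
      rw [hg₁r] at this
      exact gb.ne_zero this
    have hg₁inv : g₁⁻¹ ∈ R.Rw :=
      inv_mem_of_red_ne_zero R hg₁ (by rw [hg₁r]; exact gb.ne_zero)
    refine ⟨c, Units.mk0 g₁ hg₁0, hc, ?_⟩
    have e : algebraMap K F c * ((u / Units.mk0 g₁ hg₁0 ^ p : Fˣ) : F) =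
        (algebraMap K F c * u) * (g₁⁻¹) ^ p := by
      rw [Units.val_div_eq_div_val, Units.val_pow_eq_pow_val, Units.val_mk0, inv_pow]
      ring
    have hmem : algebraMap K F c * ((u / Units.mk0 g₁ hg₁0 ^ p : Fˣ) : F) ∈ R.Rw := by
      rw [e]
      exact mul_mem h1 (pow_mem hg₁inv p)
    refine ⟨hmem, ?_⟩
    have hr : R.red ⟨algebraMap K F c * ((u / Units.mk0 g₁ hg₁0 ^ p : Fˣ) : F), hmem⟩ =
        R.red ⟨algebraMap K F c * u, h1⟩ * R.red ⟨g₁⁻¹, hg₁inv⟩ ^ p := by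
      rw [← map_pow, ← map_mul]
      congr 1
      exact Subtype.ext e
    have hinv : R.red ⟨g₁⁻¹, hg₁inv⟩ * (gb : Ft) = 1 := by
      rw [← hg₁r, ← map_mul]
      have e1 : (⟨g₁⁻¹, hg₁inv⟩ * ⟨g₁, hg₁⟩ : R.Rw) = 1 := Subtype.ext (inv_mul_cancel₀ hg₁0)
      rw [e1, map_one]
    have hgbp : R.red ⟨algebraMap K F c * u, h1⟩ = (gb : Ft) ^ p := by
      have := congrArg (fun z : Ftˣ => (z : Ft)) hgb
      simpa using this.symm
    rw [hr, hgbp, ← mul_pow, mul_comm, hinv, one_pow]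
  · rintro ⟨c, g, hc, h, hred⟩
    have h1 := dlogRed_eq_zero_of_red_eq_one R ι hun (u / g ^ p) hc h hred
    rwa [dlogRed_div, dlogRed_pow_char R ι hun p g, sub_zero] at h1

/-- **the kernel of `θ` on the Kummer group.** -/
theorem thetaKum_eq_zero_iff (tt : Ft) (hord : ¬ (p : ℤ) ∣ (ι tt).order)
    [Algebra.IsAlgebraic k⟮tt⟯ Ft] (u : pDivUnits K F p) :
    thetaKum R ι hun p (Additive.ofMul (Kum.mk u)) = 0 ↔ ∃ (c : K) (g : Fˣ), c ≠ 0 ∧
      ∃ h : algebraMap K F c * (((u : Fˣ) / g ^ p : Fˣ) : F) ∈ R.Rw,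
        R.red ⟨algebraMap K F c * (((u : Fˣ) / g ^ p : Fˣ) : F), h⟩ = 1 := by
  rw [thetaKum_mk]
  exact dlogRed_eq_zero_iff R ι hun p tt hord (u : Fˣ)

omit [Fact p.Prime] [PerfectField k] in
/-- `p ∣ ord_q (red (c u)) ⟹ θ [u] ∈ q k[[q]]`. -/
theorem thetaKum_mem_qPowerSeries (u : pDivUnits K F p) {c : K} (hc : c ≠ 0)
    (h1 : algebraMap K F c * ((u : Fˣ) : F) ∈ R.Rw)
    (h2 : (algebraMap K F c * ((u : Fˣ) : F))⁻¹ ∈ R.Rw)
    (hord : (p : ℤ) ∣ (ι (R.red ⟨algebraMap K F c * ((u : Fˣ) : F), h1⟩)).order) :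
    ∃ Q : PowerSeries k, PowerSeries.constantCoeff Q = 0 ∧
      thetaKum R ι hun p (Additive.ofMul (Kum.mk u)) = ofPowerSeries ℤ k Q := by
  rw [thetaKum_mk, dlogRed_eq R ι hun (u : Fˣ) hc h1 h2]
  have hcF : algebraMap K F c ≠ 0 := (map_ne_zero_iff _ (algebraMap K F).injective).mpr hc
  exact dlog_mem_qPowerSeries p
    (iota_ne_zero ι (red_ne_zero_of_inv_mem R h1 h2 (mul_ne_zero hcF (u : Fˣ).ne_zero))) hord

end Kum

end Fermat.Agent.GF.D1
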