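/-
GATE-F (S40) / node GF-D1 DLOG, file 3 (helper34): **`θ₁ = q d/dq log ∘ red₁` on `Kum_p(F_N)`, with
kernel EXACTLY `ker r₁`** (helper-GK `kerRed N A p`), and `θ₂ = θ₁ ∘ W_q` with kernel `kerRed₂`.

`N` any level, `A` a valuation subring of `ℚ̄` over `p`, `k = ResidueField A`,
`Ft = FresBar N A ⊆ k((q))` the residue field of the Gauss valuation (reduction = coefficientwise
reduction of `q`-expansions).

* `unram_bar` : `Unram (redDataBar N A)` (from `GaussRedData.unramified`);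
* `exists_pow_eq_FresBar` : `f ∈ FresBar N A`, `θ f = 0 ⟹ f ∈ (FresBar N A)^p`;
* `thetaOne N A p hA : Additive (Kum ℚ̄ F_N p) →+ k((q))`, `thetaOne_mk` (`= dlog (redL (c u))` for
  ANY normalising constant `c`);
* **`thetaOne_eq_zero_iff`** : `θ₁ x = 0 ⟺ x ∈ kerRed N A p`;
* `thetaOne_mem_qPowerSeries` : `p ∣ ord_q (redL (c u)) ⟹ θ₁ [u] ∈ q k[[q]]`;
* `thetaTwo h`, **`thetaTwo_eq_zero_iff`** : `θ₂ x = 0 ⟺ x ∈ kerRed₂ h A p`;
* `thetaOne_ne_zero_or_thetaTwo_ne_zero` : `x ∉ kerRed ⊓ kerRed₂ ⟹ θ₁ x ≠ 0 ∨ θ₂ x ≠ 0`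
  (the input of END (D), `GF` GRAPH v1 S6).
-/
import Mathlib
import Fermat.Agent.GF.D1.DlogRed
import Fermat.Agent.GK.SS.CRingFacts
import Fermat.Agent.GK.UqKroneckerU

set_option autoImplicit false
set_option linter.unusedSectionVars false
set_option linter.style.haveILetI false

noncomputable section

namespace Fermat.Agent.GF.D1

open HahnSeries IntermediateField AlgebraicCurve ModularCurve IsLocalRing
open Fermat.Agent.GL.Thick Fermat.Agent.S24 Fermat.Agent.GJ.J1 Fermat.Agent.GJ.J1.Val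
open Fermat.Agent.GJ.J1.Haupt Fermat.Agent.GJ.KumGroup Fermat.Agent.GK.QS
open Fermat.Agent.GK.UqKronecker Fermat.Agent.GK.AL

variable (N : ℕ) [NeZero N] (A : ValuationSubring Kbar) (p : ℕ) [Fact p.Prime]

/-- the Gauss valuation of `F_N` is unramified over the constants. -/
theorem unram_bar : Unram (redDataBar N A) := by
  intro y hy
  obtain ⟨c, hc, h1, h2⟩ := unramified (A := A) (F := modularFunctionFieldBar N)
    (hGF := hasGaussFrac_bar N A) y hy
  refine ⟨c⁻¹, inv_ne_zero hc, ?_, ?_⟩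
  · rw [map_inv₀, mul_comm, ← div_eq_mul_inv]
    exact h1
  · rw [map_inv₀, mul_comm, ← div_eq_mul_inv]
    exact h2

/-- **the kernel of `θ` on the residue function field consists of `p`-th powers.** -/
theorem exists_pow_eq_FresBar (hA : A.LiesOverPrime p) {f : FresBar N A}
    (hf : thetaL (ResidueField A) (f : LaurentSeries (ResidueField A)) = 0) :
    ∃ g : FresBar N A, g ^ p = f := by
  have hp : p.Prime := Fact.out
  haveI : CharP (ResidueField A) p := charP_residue A hp hA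
  haveI : IsAlgClosed (ResidueField A) :=
    Fermat.Agent.GJ.ResidueAlgClosed.isAlgClosed_residueField A
  have hfd : FiniteDimensional (ResidueField A)⟮Fermat.Agent.GK.QS.jt N A⟯ (FresBar N A) :=
    (Fermat.Agent.GK.Val.Degrees.finiteDimensional_f1 N A (jF_mem_Rw N A)).1
  haveI : Algebra.IsAlgebraic (ResidueField A)⟮Fermat.Agent.GK.QS.jt N A⟯ (FresBar N A) :=
    haveI := hfd; Algebra.IsAlgebraic.of_finite _ _
  exact exists_pow_eq_of_thetaL_eq_zero p (FresBar N A).val (Fermat.Agent.GK.QS.jt N A) (hord_jF N A hp _) hf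

/-- **`θ₁ = q d/dq log ∘ red₁`** on `Kum_p(F_N)`. -/
def thetaOne (hA : A.LiesOverPrime p) :
    Additive (Kum Kb (FK N) p) →+ LaurentSeries (ResidueField A) :=
  haveI : CharP (ResidueField A) p := charP_residue A Fact.out hA
  thetaKum (redDataBar N A) (FresBar N A).val (unram_bar N A) p

/-- `θ₁ [u] = dlog (redL (c u))` for any normalising constant `c`. -/
theorem thetaOne_mk (hA : A.LiesOverPrime p) (u : pDivUnits Kb (FK N) p) {c : Kb} (hc : c ≠ 0)
    (h1 : algebraMap Kb (FK N) c * ((u : (FK N)ˣ) : FK N) ∈ (redDataBar N A).Rw)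
    (h2 : (algebraMap Kb (FK N) c * ((u : (FK N)ˣ) : FK N))⁻¹ ∈ (redDataBar N A).Rw) :
    thetaOne N A p hA (Additive.ofMul (Kum.mk u)) =
      dlog (redL A (modularFunctionFieldBar N) (hasGaussFrac_bar N A)
        ⟨algebraMap Kb (FK N) c * ((u : (FK N)ˣ) : FK N), h1⟩) := by
  haveI : CharP (ResidueField A) p := charP_residue A Fact.out hA
  show thetaKum (redDataBar N A) (FresBar N A).val (unram_bar N A) p _ = _
  rw [thetaKum_mk, dlogRed_eq (redDataBar N A) (FresBar N A).val (unram_bar N A) (u : (FK N)ˣ) hc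
    h1 h2]
  rfl

/-- **the kernel of `θ₁` is `ker r₁`.** -/
theorem thetaOne_eq_zero_iff (hA : A.LiesOverPrime p) (x : Additive (Kum Kb (FK N) p)) :
    thetaOne N A p hA x = 0 ↔ x ∈ kerRed N A p := by
  have hp : p.Prime := Fact.out
  haveI : CharP (ResidueField A) p := charP_residue A hp hA
  haveI : IsAlgClosed (ResidueField A) :=
    Fermat.Agent.GJ.ResidueAlgClosed.isAlgClosed_residueField A
  have hfd : FiniteDimensional (ResidueField A)⟮Fermat.Agent.GK.QS.jt N A⟯ (FresBar N A) :=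
    (Fermat.Agent.GK.Val.Degrees.finiteDimensional_f1 N A (jF_mem_Rw N A)).1
  haveI : Algebra.IsAlgebraic (ResidueField A)⟮Fermat.Agent.GK.QS.jt N A⟯ (FresBar N A) :=
    haveI := hfd; Algebra.IsAlgebraic.of_finite _ _
  obtain ⟨u, rfl⟩ := exists_rep_kum (K := Kb) (F := FK N) p x
  show thetaKum (redDataBar N A) (FresBar N A).val (unram_bar N A) p _ = 0 ↔ _
  rw [thetaKum_eq_zero_iff (redDataBar N A) (FresBar N A).val (unram_bar N A) p (Fermat.Agent.GK.QS.jt N A)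
    (hord_jF N A hp _) u, mem_kerRed]
  constructor
  · rintro ⟨c, g, hc, h, hred⟩
    have hmem : (u : (FK N)ˣ) / g ^ p ∈ pDivUnits Kb (FK N) p :=
      div_mem u.2 (pow_mem_pDivUnits Kb (FK N) p g)
    refine ⟨⟨(u : (FK N)ˣ) / g ^ p, hmem⟩, ⟨c⁻¹, inv_ne_zero hc, ?_⟩, ?_⟩
    · have e : (((u : (FK N)ˣ) / g ^ p : (FK N)ˣ) : FK N) / algebraMap Kb (FK N) c⁻¹ =
          algebraMap Kb (FK N) c * (((u : (FK N)ˣ) / g ^ p : (FK N)ˣ) : FK N) := by
        rw [map_inv₀, div_inv_eq_mul, mul_comm]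
      show IsPrin (hasGaussFrac_bar N A)
        ((((u : (FK N)ˣ) / g ^ p : (FK N)ˣ) : FK N) / algebraMap Kb (FK N) c⁻¹)
      rw [e]
      refine ⟨h, ?_⟩
      have := congrArg (fun z : FresBar N A => (z : LaurentSeries (ResidueField A))) hred
      exact this
    · refine congrArg Additive.ofMul ?_
      rw [eq_comm, Kum.mk_eq_mk_iff]
      refine ⟨g⁻¹, ?_⟩
      show (u : (FK N)ˣ) / g ^ p = (u : (FK N)ˣ) * g⁻¹ ^ p
      rw [inv_pow, div_eq_mul_inv]
  · rintro ⟨u', ⟨c', hc', h, hred⟩, hx⟩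
    have hx' : Kum.mk u' = Kum.mk u := hx
    obtain ⟨w, hw⟩ := Kum.mk_eq_mk_iff.mp hx'
    have e : ((u : (FK N)ˣ) / w ^ p : (FK N)ˣ) = (u' : (FK N)ˣ) := by
      rw [hw, mul_div_cancel_right]
    refine ⟨c'⁻¹, w, inv_ne_zero hc', ?_⟩
    rw [e]
    have e2 : algebraMap Kb (FK N) c'⁻¹ * ((u' : (FK N)ˣ) : FK N) =
        ((u' : (FK N)ˣ) : FK N) / algebraMap Kb (FK N) c' := by
      rw [map_inv₀, mul_comm, ← div_eq_mul_inv]
    have key : ∀ z : FK N, z = ((u' : (FK N)ˣ) : FK N) / algebraMap Kb (FK N) c' →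
        ∃ hz : z ∈ (redDataBar N A).Rw, (redDataBar N A).red ⟨z, hz⟩ = 1 := by
      rintro z rfl
      exact ⟨h, Subtype.ext hred⟩
    exact key _ e2

/-- `p ∣ ord_q (redL (c u)) ⟹ θ₁ [u] ∈ q k[[q]]`. -/
theorem thetaOne_mem_qPowerSeries (hA : A.LiesOverPrime p) (u : pDivUnits Kb (FK N) p) {c : Kb}
    (hc : c ≠ 0)
    (h1 : algebraMap Kb (FK N) c * ((u : (FK N)ˣ) : FK N) ∈ (redDataBar N A).Rw)
    (h2 : (algebraMap Kb (FK N) c * ((u : (FK N)ˣ) : FK N))⁻¹ ∈ (redDataBar N A).Rw)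
    (hord : (p : ℤ) ∣ (redL A (modularFunctionFieldBar N) (hasGaussFrac_bar N A)
      ⟨algebraMap Kb (FK N) c * ((u : (FK N)ˣ) : FK N), h1⟩).order) :
    ∃ Q : PowerSeries (ResidueField A), PowerSeries.constantCoeff Q = 0 ∧
      thetaOne N A p hA (Additive.ofMul (Kum.mk u)) = ofPowerSeries ℤ (ResidueField A) Q := by
  haveI : CharP (ResidueField A) p := charP_residue A Fact.out hA
  exact thetaKum_mem_qPowerSeries (redDataBar N A) (FresBar N A).val (unram_bar N A) p u hc h1 h2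
    hord

/-! ### the second reduction -/

section Two

variable {N} {q : ℕ} (h : ExactDvd q N)

/-- **`θ₂ = θ₁ ∘ W_q`**. -/
def thetaTwo (hA : A.LiesOverPrime p) :
    Additive (Kum Kb (FK N) p) →+ LaurentSeries (ResidueField A) :=
  (thetaOne N A p hA).comp
    (Fermat.Agent.GK.UqKronecker.autEnd (wAut h : FK N ≃ₐ[Kb] FK N) p).toAddMonoidHom

theorem thetaTwo_apply (hA : A.LiesOverPrime p) (x : Additive (Kum Kb (FK N) p)) :
    thetaTwo A p h hA x = thetaOne N A p hA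
      (Fermat.Agent.GK.UqKronecker.autEnd (wAut h : FK N ≃ₐ[Kb] FK N) p x) := rfl

/-- **the kernel of `θ₂` is `ker r₂`.** -/
theorem thetaTwo_eq_zero_iff (hA : A.LiesOverPrime p) (x : Additive (Kum Kb (FK N) p)) :
    thetaTwo A p h hA x = 0 ↔ x ∈ kerRed₂ h A p := by
  rw [thetaTwo_apply, thetaOne_eq_zero_iff, mem_kerRed₂_iff]

/-- a class outside the toric part `ker r₁ ∩ ker r₂` has `θ₁ ≠ 0` or `θ₂ ≠ 0`. -/
theorem thetaOne_ne_zero_or_thetaTwo_ne_zero (hA : A.LiesOverPrime p)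
    {x : Additive (Kum Kb (FK N) p)} (hx : x ∉ kerRed N A p ⊓ kerRed₂ h A p) :
    thetaOne N A p hA x ≠ 0 ∨ thetaTwo A p h hA x ≠ 0 := by
  by_contra hcon
  rw [not_or, not_not, not_not] at hcon
  exact hx ⟨(thetaOne_eq_zero_iff N A p hA x).mp hcon.1,
    (thetaTwo_eq_zero_iff A p h hA x).mp hcon.2⟩

end Two

end Fermat.Agent.GF.D1
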