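/-
GATE-F (S40) / node GF-D1 DLOG, file 4 (helper34): **BRIDGE of `θ₁`, `θ₂` to the vocabulary of
GF-TROP (helper86 `IsU`, `redData2`), GF-D3 (helper17 `redS`, `dlogL`) and GF-D2 (helper62 `th`,
`qSeries`)** — the D1 facts consumed by GF-END-ASM (helper96):

* `thetaL_haupt_eq` : `GJ.Haupt.thetaL = GL.Thick.thetaL`; `dlogL_eq_dlog`;
* `thetaOne_eq_dlogL_redS` : `θ₁ [u] = dlogL (redS A hu)` for a Gauss unit `u`;
* **`dlogL_redS_eq_zero_iff`**, **`th_redS_eq_zero_iff`** : `θ(ū) = 0 ⟺ [u] ∈ kerRed N A p`;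
* **`exists_residue_ne_zero_of_notMem_kerRed`** : `[u] ∉ kerRed`, `th ū = ū · qSeries (res ∘ b)`
  (the conclusion of `D2Export`) `⟹ ∃ n, res (b n) ≠ 0` — the `hne` binder of GF-D4 VERBATIM;
* second component: `isU_wAut`, `redS₂`, `thetaTwo_eq_dlogL_redS₂`, **`dlogL_redS₂_eq_zero_iff`**,
  **`th_redS₂_eq_zero_iff`**, **`exists_residue_ne_zero_of_notMem_kerRed₂`**.
-/
import Mathlib
import Fermat.Agent.GF.D1.Theta
import Fermat.Agent.GF.D3.Bridge
import Fermat.Agent.GK.AL.SecondVal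

set_option autoImplicit false
set_option linter.unusedSectionVars false
set_option linter.style.haveILetI false

noncomputable section

namespace Fermat.Agent.GF.D1

open HahnSeries AlgebraicCurve ModularCurve IsLocalRing
open Fermat.Agent.GJ.J1 Fermat.Agent.GJ.J1.Val Fermat.Agent.GJ.KumGroup
open Fermat.Agent.GK.UqKronecker Fermat.Agent.GK.AL Fermat.Agent.GF.Trop

section Series

variable {R : Type*} [CommRing R]

/-- the two `θ = q d/dq` on `R((q))` on main agree. -/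
theorem thetaL_haupt_eq (x : LaurentSeries R) :
    Fermat.Agent.GJ.Haupt.thetaL x = Fermat.Agent.GL.Thick.thetaL R x := by
  ext n
  rw [Fermat.Agent.GJ.Haupt.thetaL_coeff, Fermat.Agent.GL.Thick.coeff_thetaL]

end Series

section Field

variable {K : Type*} [Field K]

/-- helper17's `dlogL` is `dlog`. -/
theorem dlogL_eq_dlog (u : LaurentSeries K) : Fermat.Agent.GF.D3.dlogL u = dlog u := by
  rw [Fermat.Agent.GF.D3.dlogL, thetaL_haupt_eq]
  rfl

/-- `dlogL u = 0 ⟺ θ u = 0` (`u ≠ 0`). -/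
theorem dlogL_eq_zero_iff_th {u : LaurentSeries K} (hu : u ≠ 0) :
    Fermat.Agent.GF.D3.dlogL u = 0 ↔ Fermat.Agent.GF.D2.th u = 0 := by
  rw [Fermat.Agent.GF.D3.dlogL, Fermat.Agent.GF.D3.th_eq_thetaL, mul_eq_zero]
  constructor
  · rintro (h | h)
    · exact h
    · exact absurd (inv_eq_zero.mp h) hu
  · intro h
    exact Or.inl h

end Field

variable {N : ℕ} [NeZero N] (A : ValuationSubring Kb) {p : ℕ} [Fact p.Prime]

/-! ### the first component -/

section One

variable [CharP (ResidueField A) p]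

/-- **`θ₁ [u] = dlogL (red₁ u)`** for a Gauss unit `u`. -/
theorem thetaOne_eq_dlogL_redS (hA : A.LiesOverPrime p) (u : pDivUnits Kb (FK N) p)
    (hu : IsU (redDataBar N A) (((u : (FK N)ˣ) : FK N))) :
    thetaOne N A p hA (Additive.ofMul (Kum.mk u)) =
      Fermat.Agent.GF.D3.dlogL (Fermat.Agent.GF.D3.redS A hu) := by
  have e : algebraMap Kb (FK N) 1 * ((u : (FK N)ˣ) : FK N) = ((u : (FK N)ˣ) : FK N) := by
    rw [map_one, one_mul]
  have h1 : algebraMap Kb (FK N) 1 * ((u : (FK N)ˣ) : FK N) ∈ (redDataBar N A).Rw := by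
    rw [e]; exact hu.2.1
  have h2 : (algebraMap Kb (FK N) 1 * ((u : (FK N)ˣ) : FK N))⁻¹ ∈ (redDataBar N A).Rw := by
    rw [e]; exact hu.2.2
  rw [thetaOne_mk N A p hA u one_ne_zero h1 h2, dlogL_eq_dlog]
  have key : ∀ (z : FK N) (hz : z ∈ (redDataBar N A).Rw), z = ((u : (FK N)ˣ) : FK N) →
      redL A (modularFunctionFieldBar N) (hasGaussFrac_bar N A) ⟨z, hz⟩ =
        Fermat.Agent.GF.D3.redS A hu := by
    rintro z hz rfl
    rfl
  rw [key _ h1 e]

/-- **`dlog (red₁ u) = 0 ⟺ [u] ∈ ker r₁`**. -/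
theorem dlogL_redS_eq_zero_iff (hA : A.LiesOverPrime p) (u : pDivUnits Kb (FK N) p)
    (hu : IsU (redDataBar N A) (((u : (FK N)ˣ) : FK N))) :
    Fermat.Agent.GF.D3.dlogL (Fermat.Agent.GF.D3.redS A hu) = 0 ↔
      Additive.ofMul (Kum.mk u) ∈ kerRed N A p := by
  rw [← thetaOne_eq_dlogL_redS A hA u hu, thetaOne_eq_zero_iff]

/-- **`θ (red₁ u) = 0 ⟺ [u] ∈ ker r₁`** (helper62's `th`). -/
theorem th_redS_eq_zero_iff (hA : A.LiesOverPrime p) (u : pDivUnits Kb (FK N) p)
    (hu : IsU (redDataBar N A) (((u : (FK N)ˣ) : FK N))) :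
    Fermat.Agent.GF.D2.th (Fermat.Agent.GF.D3.redS A hu) = 0 ↔
      Additive.ofMul (Kum.mk u) ∈ kerRed N A p := by
  rw [← dlogL_eq_zero_iff_th (Fermat.Agent.GF.D3.redS_ne_zero A hu),
    dlogL_redS_eq_zero_iff A hA u hu]

/-- **the `hne` binder of GF-D4**: a class outside `ker r₁` whose `θ` is `ū · qSeries (res ∘ b)`
(conclusion of `D2Export`) has a nonzero reduced coefficient. -/
theorem exists_residue_ne_zero_of_notMem_kerRed (hA : A.LiesOverPrime p)
    (u : pDivUnits Kb (FK N) p) (hu : IsU (redDataBar N A) (((u : (FK N)ˣ) : FK N)))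
    (hx : Additive.ofMul (Kum.mk u) ∉ kerRed N A p) (b : ℕ → A)
    (hb : Fermat.Agent.GF.D2.th (Fermat.Agent.GF.D3.redS A hu) =
      Fermat.Agent.GF.D3.redS A hu *
        Fermat.Agent.GF.D2.qSeries (fun n => IsLocalRing.residue A (b n))) :
    ∃ n, IsLocalRing.residue A (b n) ≠ 0 := by
  by_contra hcon
  rw [not_exists] at hcon
  apply hx
  rw [← th_redS_eq_zero_iff A hA u hu, hb]
  have h0 : Fermat.Agent.GF.D2.qSeries (fun n => IsLocalRing.residue A (b n)) = 0 := by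
    have : (fun n => IsLocalRing.residue A (b n)) = fun _ => (0 : ResidueField A) := by
      funext n
      exact not_not.mp (hcon n)
    rw [this, Fermat.Agent.GF.D2.qSeries]
    have hm : PowerSeries.mk (fun _ : ℕ => (0 : ResidueField A)) = 0 := by
      ext n
      rw [PowerSeries.coeff_mk, map_zero]
    rw [hm, map_zero]
  rw [h0, mul_zero]

end One

/-! ### the second component -/

section Two

variable {q : ℕ} (h : ExactDvd q N)

/-- a unit of the second Gauss valuation is mapped by `W_q` to a unit of the first. -/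
theorem isU_wAut {x : FK N} (hx : IsU (redData2 N A h) x) :
    IsU (redDataBar N A) (wAut h x) := by
  refine ⟨?_, hx.2.1, ?_⟩
  · intro h0
    exact hx.1 ((map_eq_zero_iff (wAut h) (wAut h).injective).mp h0)
  · have := hx.2.2
    rw [mem_Rw2_iff, map_inv₀] at this
    exact this

variable [CharP (ResidueField A) p]

/-- the reduction of a unit of the second Gauss valuation, as a Laurent series. -/
def redS₂ {x : FK N} (hx : IsU (redData2 N A h) x) : LaurentSeries (ResidueField A) :=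
  (((redData2 N A h).red ⟨x, hx.2.1⟩ : FresBar N A) : LaurentSeries (ResidueField A))

theorem redS₂_eq {x : FK N} (hx : IsU (redData2 N A h) x) :
    redS₂ A h hx = Fermat.Agent.GF.D3.redS A (isU_wAut A h hx) := by
  exact congrArg (fun z : FresBar N A => (z : LaurentSeries (ResidueField A)))
    (red2_eq N A h x hx.2.1)

theorem redS₂_ne_zero {x : FK N} (hx : IsU (redData2 N A h) x) : redS₂ A h hx ≠ 0 := by
  rw [redS₂_eq]
  exact Fermat.Agent.GF.D3.redS_ne_zero A _

/-- **`θ₂ [u] = dlogL (red₂ u)`** for a unit `u` of the second Gauss valuation. -/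
theorem thetaTwo_eq_dlogL_redS₂ (hA : A.LiesOverPrime p) (u : pDivUnits Kb (FK N) p)
    (hu : IsU (redData2 N A h) (((u : (FK N)ˣ) : FK N))) :
    thetaTwo A p h hA (Additive.ofMul (Kum.mk u)) =
      Fermat.Agent.GF.D3.dlogL (redS₂ A h hu) := by
  have hmem : autUnits (wAut h : FK N ≃ₐ[Kb] FK N) u ∈ pDivUnits Kb (FK N) p :=
    autUnits_mem (wAut h : FK N ≃ₐ[Kb] FK N) p u u.2
  have hcoe : (((⟨autUnits (wAut h : FK N ≃ₐ[Kb] FK N) u, hmem⟩ : pDivUnits Kb (FK N) p) :
      (FK N)ˣ) : FK N) = wAut h (((u : (FK N)ˣ) : FK N)) :=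
    coe_autUnits (wAut h : FK N ≃ₐ[Kb] FK N) u
  have hU : IsU (redDataBar N A)
      (((⟨autUnits (wAut h : FK N ≃ₐ[Kb] FK N) u, hmem⟩ : pDivUnits Kb (FK N) p) :
        (FK N)ˣ) : FK N) := by
    rw [hcoe]
    exact isU_wAut A h hu
  rw [thetaTwo_apply, autEnd_mk, thetaOne_eq_dlogL_redS A hA _ hU, redS₂_eq]
  exact congrArg Fermat.Agent.GF.D3.dlogL (Fermat.Agent.GF.D3.redS_congr A hcoe _ _)

/-- **`dlog (red₂ u) = 0 ⟺ [u] ∈ ker r₂`**. -/
theorem dlogL_redS₂_eq_zero_iff (hA : A.LiesOverPrime p) (u : pDivUnits Kb (FK N) p)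
    (hu : IsU (redData2 N A h) (((u : (FK N)ˣ) : FK N))) :
    Fermat.Agent.GF.D3.dlogL (redS₂ A h hu) = 0 ↔
      Additive.ofMul (Kum.mk u) ∈ kerRed₂ h A p := by
  rw [← thetaTwo_eq_dlogL_redS₂ A h hA u hu, thetaTwo_eq_zero_iff]

/-- **`θ (red₂ u) = 0 ⟺ [u] ∈ ker r₂`** (helper62's `th`). -/
theorem th_redS₂_eq_zero_iff (hA : A.LiesOverPrime p) (u : pDivUnits Kb (FK N) p)
    (hu : IsU (redData2 N A h) (((u : (FK N)ˣ) : FK N))) :
    Fermat.Agent.GF.D2.th (redS₂ A h hu) = 0 ↔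
      Additive.ofMul (Kum.mk u) ∈ kerRed₂ h A p := by
  rw [← dlogL_eq_zero_iff_th (redS₂_ne_zero A h hu), dlogL_redS₂_eq_zero_iff A h hA u hu]

/-- the `hne` binder of GF-D4 on the second component. -/
theorem exists_residue_ne_zero_of_notMem_kerRed₂ (hA : A.LiesOverPrime p)
    (u : pDivUnits Kb (FK N) p) (hu : IsU (redData2 N A h) (((u : (FK N)ˣ) : FK N)))
    (hx : Additive.ofMul (Kum.mk u) ∉ kerRed₂ h A p) (b : ℕ → A)
    (hb : Fermat.Agent.GF.D2.th (redS₂ A h hu) =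
      redS₂ A h hu * Fermat.Agent.GF.D2.qSeries (fun n => IsLocalRing.residue A (b n))) :
    ∃ n, IsLocalRing.residue A (b n) ≠ 0 := by
  by_contra hcon
  rw [not_exists] at hcon
  apply hx
  rw [← th_redS₂_eq_zero_iff A h hA u hu, hb]
  have h0 : Fermat.Agent.GF.D2.qSeries (fun n => IsLocalRing.residue A (b n)) = 0 := by
    have : (fun n => IsLocalRing.residue A (b n)) = fun _ => (0 : ResidueField A) := by
      funext n
      exact not_not.mp (hcon n)
    rw [this, Fermat.Agent.GF.D2.qSeries]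
    have hm : PowerSeries.mk (fun _ : ℕ => (0 : ResidueField A)) = 0 := by
      ext n
      rw [PowerSeries.coeff_mk, map_zero]
    rw [hm, map_zero]
  rw [h0, mul_zero]

end Two

end Fermat.Agent.GF.D1
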